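import Mathlib
import Fermat.Prelude.Def_CuspForm_HeckeLocal
import Fermat.Prelude.Def_CuspForm_HeckeEvalForms
import Fermat.Prelude.Def_HeckeGalois_EichlerShimura
import Fermat.Prelude.Thm_ModularFormClass_qCoeff_heckeT
import Fermat.Prelude.Thm_ModularFormClass_qCoeff_heckeU
import Fermat.Prelude.Thm_UpperHalfPlane_eq_of_forall_qCoeff_eq
import Fermat.Prelude.Thm_CongruenceSubgroup_one_mem_strictPeriods_Gamma0
import Fermat.Agent.S16.H79.RedA

/-
S16 package R-B (duality), helper29.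

`T = heckeLatticeAlgebra p ∅` acts on the lattice `L = intLattice p 2` of weight-2 cusp forms of
level `Γ₀(p)` with integral `q`-expansion.  The pairing `L × T → ℤ`, `(f, t) ↦ a₁(t f)`, is perfect
(`exists_pairL_eq`): left/right kernels vanish by the `q`-coefficient recursions for the prime
generators (`exists_heckePoly` produces "`T_n`" with `a_n(f) = a₁(T_n f)` and Eisenstein value
`σ'(n)`), ranks agree, and the lattice is saturated.

Main export (`exists_form_congruent`, exact S16 interface shape): if `m` divides the Eisenstein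
value of every Hecke polynomial killing the lattice, then some cusp form with integral coefficients
is congruent to the Eisenstein series modulo `m`: `a_k(f) ≡ σ'(k) (mod m)` for all `k ≥ 1`.
`exists_lattice_form_congruent` also records `f ∈ intLattice p 2`.
-/

set_option autoImplicit false

noncomputable section

namespace Fermat.Agent.S16.H29

open CuspForm ModularCurve ModularFormClass

section Coeff

variable (N : ℕ) (k : ℤ)

/-- The `n`-th `q`-coefficient as a `ℂ`-linear functional on cusp forms of level `Γ₀(N)`. -/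
def qCoeffLin (n : ℕ) : CuspForm (CongruenceSubgroup.Gamma0 N) k →ₗ[ℂ] ℂ where
  toFun f := qCoeff f n
  map_add' f g := by
    unfold qCoeff
    rw [FunLike.coe_add, ModularForm.qExpansion_add one_pos
      (CongruenceSubgroup.one_mem_strictPeriods_Gamma0 N)]
    simp
  map_smul' c f := by
    unfold qCoeff
    rw [FunLike.coe_smul, ModularForm.qExpansion_smul one_pos
      (CongruenceSubgroup.one_mem_strictPeriods_Gamma0 N)]
    simp

@[simp] theorem qCoeffLin_apply (n : ℕ) (f : CuspForm (CongruenceSubgroup.Gamma0 N) k) :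
    qCoeffLin N k n f = qCoeff f n := rfl

variable {N k}

theorem exists_int_qCoeff {f : CuspForm (CongruenceSubgroup.Gamma0 N) k}
    (hf : f ∈ intLattice N k) (n : ℕ) : ∃ m : ℤ, qCoeff f n = (m : ℂ) := by
  unfold intLattice at hf
  induction hf using Submodule.span_induction with
  | mem x hx => exact hx n
  | zero => exact ⟨0, by simpa using (qCoeffLin N k n).map_zero⟩
  | add x y _ _ hx hy =>
    obtain ⟨a, ha⟩ := hx
    obtain ⟨b, hb⟩ := hy
    refine ⟨a + b, ?_⟩
    have := (qCoeffLin N k n).map_add x y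
    simp only [qCoeffLin_apply] at this
    rw [this, ha, hb]; push_cast; rfl
  | smul c x _ hx =>
    obtain ⟨a, ha⟩ := hx
    refine ⟨c * a, ?_⟩
    have := ((qCoeffLin N k n).restrictScalars ℤ).map_smul c x
    simp only [LinearMap.coe_restrictScalars, qCoeffLin_apply] at this
    rw [this, ha]; push_cast; simp

theorem qCoeff_zero_eq_zero (f : CuspForm (CongruenceSubgroup.Gamma0 N) k) : qCoeff f 0 = 0 := by
  unfold qCoeff
  exact CuspFormClass.qExpansion_coeff_zero f one_pos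
    (CongruenceSubgroup.one_mem_strictPeriods_Gamma0 N)

/-- A cusp form all of whose `q`-coefficients of positive index vanish is zero. -/
theorem eq_zero_of_forall_qCoeff (f : CuspForm (CongruenceSubgroup.Gamma0 N) k)
    (h : ∀ n : ℕ, 0 < n → qCoeff f n = 0) : f = 0 := by
  have h0 : UpperHalfPlane.qExpansion 1 (⇑f) = 0 := by
    ext n
    rcases Nat.eq_zero_or_pos n with rfl | hn
    · simpa [qCoeff] using qCoeff_zero_eq_zero f
    · simpa [qCoeff] using h n hn
  have hΓ := CongruenceSubgroup.one_mem_strictPeriods_Gamma0 N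
  have : Fact (IsCusp OnePoint.infty
      (Subgroup.map (Matrix.SpecialLinearGroup.mapGL ℝ) (CongruenceSubgroup.Gamma0 N))) :=
    ⟨Subgroup.isCusp_of_mem_strictPeriods one_pos hΓ⟩
  have h1 := (UpperHalfPlane.qExpansion_eq_zero_iff one_pos
    (SlashInvariantFormClass.periodic_comp_ofComplex f hΓ) (ModularFormClass.holo f)
    (ModularFormClass.bdd_at_infty f)).mp h0
  exact DFunLike.coe_injective h1

variable (N k)

/-- The `n`-th `q`-coefficient of an element of the integral lattice, as an integer. -/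
def coeffZ (n : ℕ) : ↥(intLattice N k) →ₗ[ℤ] ℤ where
  toFun f := (exists_int_qCoeff f.2 n).choose
  map_add' f g := by
    apply Int.cast_injective (α := ℂ)
    push_cast
    rw [← (exists_int_qCoeff f.2 n).choose_spec, ← (exists_int_qCoeff g.2 n).choose_spec,
      ← (exists_int_qCoeff (f + g).2 n).choose_spec]
    exact (qCoeffLin N k n).map_add _ _
  map_smul' c f := by
    apply Int.cast_injective (α := ℂ)
    simp only [RingHom.id_apply, smul_eq_mul]
    push_cast
    rw [← (exists_int_qCoeff f.2 n).choose_spec, ← (exists_int_qCoeff (c • f).2 n).choose_spec]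
    have := ((qCoeffLin N k n).restrictScalars ℤ).map_smul c
      (f : CuspForm (CongruenceSubgroup.Gamma0 N) k)
    simp only [LinearMap.coe_restrictScalars, qCoeffLin_apply, zsmul_eq_mul] at this
    exact this

variable {N k}

theorem coeffZ_spec (n : ℕ) (f : ↥(intLattice N k)) :
    ((coeffZ N k n f : ℤ) : ℂ) = qCoeff (f : CuspForm (CongruenceSubgroup.Gamma0 N) k) n :=
  (exists_int_qCoeff f.2 n).choose_spec.symm

theorem coeffZ_zero_index (f : ↥(intLattice N k)) : coeffZ N k 0 f = 0 := by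
  have := coeffZ_spec 0 f
  rw [qCoeff_zero_eq_zero] at this
  exact_mod_cast this

theorem eq_zero_of_forall_coeffZ (f : ↥(intLattice N k))
    (h : ∀ n : ℕ, 0 < n → coeffZ N k n f = 0) : f = 0 := by
  apply Subtype.ext
  apply eq_zero_of_forall_qCoeff
  intro n hn
  rw [← coeffZ_spec, h n hn]
  simp

end Coeff

section Gen

variable (p : ℕ) [Fact p.Prime]

/-- The lattice `L` of weight-2 cusp forms of level `Γ₀(p)` with integral `q`-expansion. -/
abbrev Lat : Type := ↥(intLattice p 2)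

/-- The Hecke algebra `T ⊆ End(L)` of the frozen statement. -/
abbrev Hk : Type := ↥(heckeLatticeAlgebra p ∅)

/-- The ring homomorphism `ℤ[X_ℓ] → T` of the frozen statement. -/
abbrev rho : HeckeAlg →+* Hk p :=
  (latticeRestrictHom p ∅).toRingHom.comp (heckeEvalForms p 2)

/-- The Eisenstein evaluation `ℤ[X_ℓ] → ℤ`. -/
abbrev eps : HeckeAlg →ₐ[ℤ] ℤ := MvPolynomial.aeval (eisensteinSystem p)

/-- The action of `t ∈ T` on the lattice. -/
def act (t : Hk p) (f : Lat p) : Lat p := (t : Module.End ℤ (Lat p)) f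

theorem act_rho_coe (P : HeckeAlg) (f : Lat p) :
    ((act p (rho p P) f : Lat p) : CuspForm (CongruenceSubgroup.Gamma0 p) 2) =
      ((heckeEvalForms p 2 P : heckeAlgebra p 2 ∅) :
        Module.End ℂ (CuspForm (CongruenceSubgroup.Gamma0 p) 2))
        (f : CuspForm (CongruenceSubgroup.Gamma0 p) 2) := rfl

theorem coeffZ_act_gen_of_ne (ℓ : Nat.Primes) (hℓ : (ℓ : ℕ) ≠ p) (f : Lat p) (n : ℕ) :
    coeffZ p 2 n (act p (rho p (heckeGen ℓ)) f) =
      coeffZ p 2 (n * ℓ) f + if (ℓ : ℕ) ∣ n then (ℓ : ℤ) * coeffZ p 2 (n / ℓ) f else 0 := by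
  have hℓp : ¬ (ℓ : ℕ) ∣ p := fun h =>
    hℓ ((Nat.prime_dvd_prime_iff_eq ℓ.2 Fact.out).mp h)
  apply Int.cast_injective (α := ℂ)
  rw [coeffZ_spec, act_rho_coe, heckeEvalForms_heckeGen_of_not_dvd hℓp]
  have h1 := ModularFormClass.qCoeff_heckeT (k := 2)
    ((f : Lat p) : CuspForm (CongruenceSubgroup.Gamma0 p) 2)
    (CongruenceSubgroup.one_mem_strictPeriods_Gamma0 p) ℓ.2.ne_zero n
  rw [ModularForm.coeffHeckeT_apply] at h1
  rw [Int.cast_add, coeffZ_spec]
  split_ifs with hd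
  · rw [if_pos hd] at h1
    push_cast
    rw [coeffZ_spec]
    simpa using h1
  · rw [if_neg hd] at h1
    simpa using h1

theorem coeffZ_act_gen_self (ℓ : Nat.Primes) (hℓ : (ℓ : ℕ) = p) (f : Lat p) (n : ℕ) :
    coeffZ p 2 n (act p (rho p (heckeGen ℓ)) f) = coeffZ p 2 (n * p) f := by
  have hℓp : (ℓ : ℕ) ∣ p := hℓ ▸ dvd_rfl
  apply Int.cast_injective (α := ℂ)
  rw [coeffZ_spec, act_rho_coe, heckeEvalForms_heckeGen_of_dvd hℓp]
  have h1 := ModularFormClass.qCoeff_heckeU (k := 2)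
    ((f : Lat p) : CuspForm (CongruenceSubgroup.Gamma0 p) 2)
    (CongruenceSubgroup.one_mem_strictPeriods_Gamma0 p) ℓ.2.ne_zero n
  rw [ModularForm.coeffHeckeU_apply] at h1
  rw [coeffZ_spec]
  have h2 : n * p = n * (ℓ : ℕ) := by rw [hℓ]
  rw [h2]
  exact h1

theorem act_mul (t₁ t₂ : Hk p) (f : Lat p) : act p (t₁ * t₂) f = act p t₁ (act p t₂ f) := rfl

theorem act_one (f : Lat p) : act p 1 f = f := rfl

theorem act_sub (t₁ t₂ : Hk p) (f : Lat p) : act p (t₁ - t₂) f = act p t₁ f - act p t₂ f := rfl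

theorem act_add (t₁ t₂ : Hk p) (f : Lat p) : act p (t₁ + t₂) f = act p t₁ f + act p t₂ f := rfl

theorem act_zsmul (c : ℤ) (t : Hk p) (f : Lat p) : act p (c • t) f = c • act p t f := rfl

theorem act_comm (t₁ t₂ : Hk p) (f : Lat p) :
    act p t₁ (act p t₂ f) = act p t₂ (act p t₁ f) := by
  rw [← act_mul, ← act_mul, mul_comm]

end Gen

section Sigma

/-- `σ'(k)`: the sum of the divisors of `k` prime to `p`. -/
def sigmaPrime (p k : ℕ) : ℤ := ∑ d ∈ k.divisors.filter (fun d => ¬ p ∣ d), (d : ℤ)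

variable (p : ℕ) [Fact p.Prime]

theorem sigmaPrime_one : sigmaPrime p 1 = 1 := by
  have hp : ¬ p ∣ 1 := (Fact.out : p.Prime).one_lt.ne' ∘ Nat.dvd_one.mp
  simp [sigmaPrime, Finset.filter_singleton, hp]

theorem sigmaPrime_mul_self (k : ℕ) (hk : 0 < k) : sigmaPrime p (k * p) = sigmaPrime p k := by
  have hp : p.Prime := Fact.out
  unfold sigmaPrime
  congr 1
  ext d
  simp only [Finset.mem_filter, Nat.mem_divisors]
  constructor
  · rintro ⟨⟨hd, -⟩, hpd⟩
    refine ⟨⟨?_, hk.ne'⟩, hpd⟩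
    exact (Nat.Coprime.dvd_mul_right ((Nat.Prime.coprime_iff_not_dvd hp).mpr hpd).symm).mp hd
  · rintro ⟨⟨hd, -⟩, hpd⟩
    exact ⟨⟨Dvd.dvd.mul_right hd p, Nat.mul_ne_zero hk.ne' hp.ne_zero⟩, hpd⟩

theorem sigmaPrime_mul_prime (k ℓ : ℕ) (hk : 0 < k) (hℓ : ℓ.Prime) (hℓp : ℓ ≠ p) :
    sigmaPrime p (k * ℓ) =
      (1 + (ℓ : ℤ)) * sigmaPrime p k - (if ℓ ∣ k then (ℓ : ℤ) * sigmaPrime p (k / ℓ) else 0) := by
  have hp : p.Prime := Fact.out
  have hpℓ : ¬ p ∣ ℓ := fun h => hℓp ((Nat.prime_dvd_prime_iff_eq hp hℓ).mp h).symm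
  unfold sigmaPrime
  set D : ℕ → Finset ℕ := fun k => k.divisors.filter (fun d => ¬ p ∣ d) with hD
  change ∑ d ∈ D (k * ℓ), (d : ℤ) = (1 + (ℓ : ℤ)) * ∑ d ∈ D k, (d : ℤ) -
    (if ℓ ∣ k then (ℓ : ℤ) * ∑ d ∈ D (k / ℓ), (d : ℤ) else 0)
  have ha : (D (k * ℓ)).filter (fun d => d ∣ k) = D k := by
    ext d
    simp only [hD, Finset.mem_filter, Nat.mem_divisors]
    constructor
    · rintro ⟨⟨⟨-, -⟩, hpd⟩, hdk⟩
      exact ⟨⟨hdk, hk.ne'⟩, hpd⟩
    · rintro ⟨⟨hdk, -⟩, hpd⟩
      exact ⟨⟨⟨Dvd.dvd.mul_right hdk ℓ, Nat.mul_ne_zero hk.ne' hℓ.ne_zero⟩, hpd⟩, hdk⟩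
  have hb : (D (k * ℓ)).filter (fun d => ¬ d ∣ k) =
      ((D k).filter (fun d => ¬ ℓ * d ∣ k)).image (fun d => ℓ * d) := by
    ext d
    simp only [hD, Finset.mem_filter, Nat.mem_divisors, Finset.mem_image]
    constructor
    · rintro ⟨⟨⟨hd, -⟩, hpd⟩, hdk⟩
      have hℓd : ℓ ∣ d := by
        by_contra hnd
        exact hdk ((Nat.Coprime.dvd_mul_right
          ((Nat.Prime.coprime_iff_not_dvd hℓ).mpr hnd).symm).mp hd)
      obtain ⟨d', rfl⟩ := hℓd
      refine ⟨d', ⟨⟨⟨?_, hk.ne'⟩, fun h => hpd (Dvd.dvd.mul_left h ℓ)⟩, hdk⟩, rfl⟩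
      rw [mul_comm k ℓ] at hd
      exact (Nat.mul_dvd_mul_iff_left hℓ.pos).mp hd
    · rintro ⟨d', ⟨⟨⟨hd', -⟩, hpd'⟩, hnd⟩, rfl⟩
      refine ⟨⟨⟨?_, Nat.mul_ne_zero hk.ne' hℓ.ne_zero⟩, ?_⟩, hnd⟩
      · rw [mul_comm k ℓ]; exact Nat.mul_dvd_mul_left ℓ hd'
      · intro h
        rcases (Nat.Prime.dvd_mul hp).mp h with h | h
        · exact hpℓ h
        · exact hpd' h
  have hd : (D k).filter (fun d => ℓ * d ∣ k) = if ℓ ∣ k then D (k / ℓ) else ∅ := by
    split_ifs with hℓk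
    · ext d
      simp only [hD, Finset.mem_filter, Nat.mem_divisors]
      constructor
      · rintro ⟨⟨⟨-, -⟩, hpd⟩, hdk⟩
        refine ⟨⟨(Nat.dvd_div_iff_mul_dvd hℓk).mpr hdk, ?_⟩, hpd⟩
        exact (Nat.div_pos (Nat.le_of_dvd hk hℓk) hℓ.pos).ne'
      · rintro ⟨⟨hdk, -⟩, hpd⟩
        have h1 := (Nat.dvd_div_iff_mul_dvd hℓk).mp hdk
        exact ⟨⟨⟨dvd_trans (Dvd.intro_left ℓ rfl) h1, hk.ne'⟩, hpd⟩, h1⟩
    · ext d
      simp only [hD, Finset.mem_filter, Nat.mem_divisors, Finset.notMem_empty, iff_false]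
      rintro ⟨-, h⟩
      exact hℓk (dvd_trans (Dvd.intro d rfl) h)
  rw [← Finset.sum_filter_add_sum_filter_not (D (k * ℓ)) (fun d => d ∣ k), ha, hb,
    Finset.sum_image (fun x _ y _ h => Nat.eq_of_mul_eq_mul_left hℓ.pos h)]
  have hc := Finset.sum_filter_add_sum_filter_not (D k) (fun d => ℓ * d ∣ k) (fun d => (d : ℤ))
  rw [hd] at hc
  have he : ∑ x ∈ (D k).filter (fun d => ¬ ℓ * d ∣ k), ((ℓ * x : ℕ) : ℤ) =
      (ℓ : ℤ) * ∑ x ∈ (D k).filter (fun d => ¬ ℓ * d ∣ k), (x : ℤ) := by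
    rw [Finset.mul_sum]
    exact Finset.sum_congr rfl fun x _ => by push_cast; ring
  rw [he]
  split_ifs with hℓk
  · rw [if_pos hℓk] at hc
    linear_combination (ℓ : ℤ) * hc
  · rw [if_neg hℓk, Finset.sum_empty, zero_add] at hc
    rw [hc]; ring

end Sigma

section HeckePoly

variable (p : ℕ) [Fact p.Prime]

omit [Fact p.Prime] in
theorem eps_heckeGen_self (ℓ : Nat.Primes) (hℓ : (ℓ : ℕ) = p) : eps p (heckeGen ℓ) = 1 := by
  rw [aeval_heckeGen, eisensteinSystem_of_dvd (hℓ ▸ dvd_rfl)]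

theorem eps_heckeGen_of_ne (ℓ : Nat.Primes) (hℓ : (ℓ : ℕ) ≠ p) :
    eps p (heckeGen ℓ) = 1 + (ℓ : ℤ) := by
  have hℓp : ¬ (ℓ : ℕ) ∣ p := fun h =>
    hℓ ((Nat.prime_dvd_prime_iff_eq ℓ.2 Fact.out).mp h)
  rw [aeval_heckeGen, eisensteinSystem_of_not_dvd hℓp]

/-- For every `n ≥ 1` there is a Hecke polynomial `P_n` ("`T_n`") with `a_n(f) = a_1(P_n f)` on the
lattice and Eisenstein value `σ'(n)`. -/
theorem exists_heckePoly (n : ℕ) (hn : 0 < n) :
    ∃ P : HeckeAlg, eps p P = sigmaPrime p n ∧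
      ∀ f : Lat p, coeffZ p 2 n f = coeffZ p 2 1 (act p (rho p P) f) := by
  induction n using Nat.strong_induction_on with
  | _ n ih =>
    rcases Nat.lt_or_ge n 2 with h2 | h2
    · have h1 : n = 1 := by omega
      subst h1
      refine ⟨1, ?_, fun f => ?_⟩
      · rw [map_one, sigmaPrime_one]
      · rw [map_one, act_one]
    · have hn1 : n ≠ 1 := by omega
      set ℓ : Nat.Primes := ⟨n.minFac, Nat.minFac_prime hn1⟩ with hℓdef
      have hℓn : (ℓ : ℕ) ∣ n := Nat.minFac_dvd n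
      set k := n / (ℓ : ℕ) with hkdef
      have hkℓ : k * (ℓ : ℕ) = n := Nat.div_mul_cancel hℓn
      have hℓ2 : 2 ≤ (ℓ : ℕ) := ℓ.2.two_le
      have hk0 : 0 < k := Nat.div_pos (Nat.le_of_dvd hn hℓn) ℓ.2.pos
      have hkn : k < n := by nlinarith
      obtain ⟨Pk, hPk1, hPk2⟩ := ih k hkn hk0
      by_cases hℓp : (ℓ : ℕ) = p
      · have hkp : k * p = n := by rw [← hℓp]; exact hkℓ
        refine ⟨heckeGen ℓ * Pk, ?_, fun f => ?_⟩
        · rw [map_mul, eps_heckeGen_self p ℓ hℓp, one_mul, hPk1, ← hkp,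
            sigmaPrime_mul_self p k hk0]
        · rw [map_mul, mul_comm, act_mul, ← hPk2, coeffZ_act_gen_self p ℓ hℓp, hkp]
      · by_cases hℓk : (ℓ : ℕ) ∣ k
        · have hk'0 : 0 < k / (ℓ : ℕ) := Nat.div_pos (Nat.le_of_dvd hk0 hℓk) ℓ.2.pos
          have hk'n : k / (ℓ : ℕ) < n := lt_of_le_of_lt (Nat.div_le_self _ _) hkn
          obtain ⟨Pk', hPk'1, hPk'2⟩ := ih (k / (ℓ : ℕ)) hk'n hk'0
          refine ⟨heckeGen ℓ * Pk - ((ℓ : ℕ) : ℤ) • Pk', ?_, fun f => ?_⟩
          · rw [map_sub, map_mul, map_zsmul, eps_heckeGen_of_ne p ℓ hℓp, hPk1, hPk'1, ← hkℓ,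
              sigmaPrime_mul_prime p k ℓ hk0 ℓ.2 hℓp, if_pos hℓk]
            simp
          · rw [map_sub, map_mul, map_zsmul, act_sub, act_zsmul, mul_comm, act_mul, map_sub,
              map_zsmul, ← hPk2, ← hPk'2, coeffZ_act_gen_of_ne p ℓ hℓp, if_pos hℓk, hkℓ]
            simp
        · refine ⟨heckeGen ℓ * Pk, ?_, fun f => ?_⟩
          · rw [map_mul, eps_heckeGen_of_ne p ℓ hℓp, hPk1, ← hkℓ,
              sigmaPrime_mul_prime p k ℓ hk0 ℓ.2 hℓp, if_neg hℓk]
            simp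
          · rw [map_mul, mul_comm, act_mul, ← hPk2, coeffZ_act_gen_of_ne p ℓ hℓp, if_neg hℓk,
              hkℓ]
            simp

end HeckePoly

section Pairing

variable (p : ℕ) [Fact p.Prime]

theorem act_add_right (t : Hk p) (f g : Lat p) : act p t (f + g) = act p t f + act p t g :=
  map_add (t : Module.End ℤ (Lat p)) f g

theorem act_zsmul_right (t : Hk p) (c : ℤ) (f : Lat p) : act p t (c • f) = c • act p t f :=
  map_zsmul (t : Module.End ℤ (Lat p)) c f

/-- The pairing `L → Hom(T, ℤ)`, `f ↦ (t ↦ a₁(t f))`. -/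
def pairL : Lat p →ₗ[ℤ] (Hk p →ₗ[ℤ] ℤ) where
  toFun f :=
    { toFun := fun t => coeffZ p 2 1 (act p t f)
      map_add' := fun t₁ t₂ => by rw [act_add, map_add]
      map_smul' := fun c t => by rw [act_zsmul, map_zsmul]; rfl }
  map_add' f g := by
    ext t
    simp only [LinearMap.coe_mk, AddHom.coe_mk, LinearMap.add_apply]
    rw [act_add_right, map_add]
  map_smul' c f := by
    ext t
    simp only [LinearMap.coe_mk, AddHom.coe_mk, LinearMap.smul_apply, RingHom.id_apply]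
    rw [act_zsmul_right, map_zsmul]

@[simp] theorem pairL_apply (f : Lat p) (t : Hk p) :
    pairL p f t = coeffZ p 2 1 (act p t f) := rfl

theorem coeffZ_eq_pairL (n : ℕ) (hn : 0 < n) :
    ∃ P : HeckeAlg, eps p P = sigmaPrime p n ∧ ∀ f : Lat p, coeffZ p 2 n f = pairL p f (rho p P) :=
  exists_heckePoly p n hn

theorem pairL_injective : Function.Injective (pairL p) := by
  rw [injective_iff_map_eq_zero]
  intro f hf
  apply eq_zero_of_forall_coeffZ
  intro n hn
  obtain ⟨P, -, hP⟩ := coeffZ_eq_pairL p n hn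
  rw [hP f, hf]
  rfl

theorem pairL_flip_injective : Function.Injective (pairL p).flip := by
  rw [injective_iff_map_eq_zero]
  intro t ht
  have h1 : ∀ f : Lat p, act p t f = 0 := by
    intro f
    apply pairL_injective p
    rw [map_zero]
    ext t'
    rw [pairL_apply, act_comm, LinearMap.zero_apply]
    have := LinearMap.congr_fun ht (act p t' f)
    simpa using this
  apply Subtype.ext
  apply LinearMap.ext
  intro f
  exact h1 f

theorem finrank_Lat_eq_finrank_Hk : Module.finrank ℤ (Lat p) = Module.finrank ℤ (Hk p) := by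
  have := intLattice.moduleFinite p
  have := intLattice.moduleFree p
  apply le_antisymm
  · have := LinearMap.finrank_le_finrank_of_injective (pairL_injective p)
    rwa [Module.finrank_linearMap_self] at this
  · have := LinearMap.finrank_le_finrank_of_injective (pairL_flip_injective p)
    rwa [Module.finrank_linearMap_self] at this

theorem exists_zsmul_mem_range_pairL (lam : Hk p →ₗ[ℤ] ℤ) :
    ∃ M : ℤ, M ≠ 0 ∧ M • lam ∈ LinearMap.range (pairL p) := by
  have := intLattice.moduleFinite p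
  have := intLattice.moduleFree p
  have hrk : Module.finrank ℤ (LinearMap.range (pairL p)) =
      Module.finrank ℤ (Hk p →ₗ[ℤ] ℤ) := by
    rw [LinearMap.finrank_range_of_inj (pairL_injective p), Module.finrank_linearMap_self,
      finrank_Lat_eq_finrank_Hk]
  have : Finite ((Hk p →ₗ[ℤ] ℤ) ⧸ LinearMap.range (pairL p)) :=
    Submodule.finiteQuotientOfFreeOfRankEq _ hrk
  refine ⟨(Nat.card ((Hk p →ₗ[ℤ] ℤ) ⧸ LinearMap.range (pairL p)) : ℤ), ?_, ?_⟩
  · exact_mod_cast (Nat.card_pos (α := (Hk p →ₗ[ℤ] ℤ) ⧸ LinearMap.range (pairL p))).ne'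
  · rw [← Submodule.Quotient.mk_eq_zero, Submodule.Quotient.mk_smul, natCast_zsmul]
    exact card_nsmul_eq_zero'

/-- Saturation of the lattice: if `M • lam` is represented by `g ∈ L` then `lam` is represented
by `g / M ∈ L`. -/
theorem exists_pairL_eq_of_zsmul (lam : Hk p →ₗ[ℤ] ℤ) (M : ℤ) (hM : M ≠ 0) (g : Lat p)
    (hg : ∀ t : Hk p, pairL p g t = M * lam t) : ∃ f : Lat p, ∀ t : Hk p, pairL p f t = lam t := by
  -- the coefficients of `g` are divisible by `M`
  have hcoef : ∀ n : ℕ, 0 < n → ∃ a : ℤ, coeffZ p 2 n g = M * a := by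
    intro n hn
    obtain ⟨P, -, hP⟩ := coeffZ_eq_pairL p n hn
    exact ⟨lam (rho p P), by rw [hP g, hg]⟩
  have hMC : (M : ℂ) ≠ 0 := by exact_mod_cast hM
  have hf₀mem : ((M : ℂ)⁻¹) • (g : CuspForm (CongruenceSubgroup.Gamma0 p) 2) ∈ intLattice p 2 := by
    apply Submodule.subset_span
    intro n
    rcases Nat.eq_zero_or_pos n with rfl | hn
    · refine ⟨0, ?_⟩
      rw [Int.cast_zero]
      exact qCoeff_zero_eq_zero
        (((M : ℂ)⁻¹) • (g : CuspForm (CongruenceSubgroup.Gamma0 p) 2))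
    · obtain ⟨a, ha⟩ := hcoef n hn
      refine ⟨a, ?_⟩
      have h1 := (qCoeffLin p 2 n).map_smul ((M : ℂ)⁻¹)
        (g : CuspForm (CongruenceSubgroup.Gamma0 p) 2)
      simp only [qCoeffLin_apply, smul_eq_mul] at h1
      rw [h1, ← coeffZ_spec, ha]
      push_cast
      field_simp
  have hMf : M • (⟨_, hf₀mem⟩ : Lat p) = g := by
    apply Subtype.ext
    change M • ((M : ℂ)⁻¹ • (g : CuspForm (CongruenceSubgroup.Gamma0 p) 2)) =
      (g : CuspForm (CongruenceSubgroup.Gamma0 p) 2)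
    rw [← Int.cast_smul_eq_zsmul ℂ, smul_smul, mul_inv_cancel₀ hMC, one_smul]
  refine ⟨⟨_, hf₀mem⟩, fun t => ?_⟩
  have h2 := hg t
  rw [← hMf, pairL_apply, act_zsmul_right, map_zsmul, smul_eq_mul] at h2
  exact mul_left_cancel₀ hM h2

/-- The pairing is perfect: every `ℤ`-linear functional on `T` is `t ↦ a₁(t f)` for a lattice
element `f`. -/
theorem exists_pairL_eq (lam : Hk p →ₗ[ℤ] ℤ) : ∃ f : Lat p, ∀ t : Hk p, pairL p f t = lam t := by
  obtain ⟨M, hM, g, hg⟩ := exists_zsmul_mem_range_pairL p lam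
  refine exists_pairL_eq_of_zsmul p lam M hM g fun t => ?_
  rw [hg]
  rfl

end Pairing

section Final

variable (p : ℕ) [Fact p.Prime]

theorem rho_surjective : Function.Surjective (rho p) := H79.latticeEval_surjective p

/-- A `ℤ`-linear functional on `T` lifting the Eisenstein character modulo `m`. -/
theorem exists_lift (m : ℕ) (hm : ∀ P : HeckeAlg, rho p P = 0 → (m : ℤ) ∣ eps p P) :
    ∃ lam : Hk p →ₗ[ℤ] ℤ, ∀ P : HeckeAlg, (m : ℤ) ∣ eps p P - lam (rho p P) := by
  classical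
  let b := Module.Free.chooseBasis ℤ (Hk p)
  choose Q hQ using fun i => rho_surjective p (b i)
  refine ⟨b.constr ℤ (fun i => eps p (Q i)), fun P => ?_⟩
  set P' : HeckeAlg := (b.repr (rho p P)).sum (fun i a => a • Q i) with hP'
  have h1 : rho p P' = rho p P := by
    rw [hP', map_finsuppSum]
    conv_rhs => rw [← b.linearCombination_repr (rho p P)]
    rw [Finsupp.linearCombination_apply]
    refine Finsupp.sum_congr fun i _ => ?_
    rw [map_zsmul, hQ]
  have h2 : b.constr ℤ (fun i => eps p (Q i)) (rho p P) = eps p P' := by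
    rw [Module.Basis.constr_apply, hP', map_finsuppSum]
    refine Finsupp.sum_congr fun i _ => ?_
    rw [map_zsmul]
  rw [h2, ← map_sub]
  exact hm _ (by rw [map_sub, h1, sub_self])

/-- **R-B (duality), strong form.** If `m` divides the Eisenstein value of every Hecke polynomial
acting as zero on the lattice, there is a form in the lattice congruent to the Eisenstein series
modulo `m` (all coefficients of positive index). -/
theorem exists_lattice_form_congruent (m : ℕ)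
    (hm : ∀ P : HeckeAlg, rho p P = 0 → (m : ℤ) ∣ MvPolynomial.aeval (eisensteinSystem p) P) :
    ∃ f : CuspForm (CongruenceSubgroup.Gamma0 p) 2, f ∈ intLattice p 2 ∧
      ∀ k : ℕ, 0 < k → ∃ a : ℤ, ModularFormClass.qCoeff f k = (a : ℂ) ∧
        (m : ℤ) ∣ a - sigmaPrime p k := by
  obtain ⟨lam, hlam⟩ := exists_lift p m hm
  obtain ⟨f, hf⟩ := exists_pairL_eq p lam
  refine ⟨f, f.2, fun k hk => ?_⟩
  obtain ⟨P, hP1, hP2⟩ := coeffZ_eq_pairL p k hk
  refine ⟨coeffZ p 2 k f, (coeffZ_spec k f).symm, ?_⟩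
  rw [hP2 f, hf, ← hP1]
  exact (dvd_sub_comm).mp (hlam P)

/-- **R-B (duality)** in the exact shape of the S16 interface. -/
theorem exists_form_congruent (m : ℕ)
    (hm : ∀ P : HeckeAlg, rho p P = 0 → (m : ℤ) ∣ MvPolynomial.aeval (eisensteinSystem p) P) :
    ∃ f : CuspForm (CongruenceSubgroup.Gamma0 p) 2,
      ∀ k : ℕ, 0 < k → ∃ a : ℤ, ModularFormClass.qCoeff f k = (a : ℂ) ∧
        (m : ℤ) ∣ a - sigmaPrime p k := by
  obtain ⟨f, -, hf⟩ := exists_lattice_form_congruent p m hm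
  exact ⟨f, hf⟩

end Final

end Fermat.Agent.S16.H29
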